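/-
Programme T1B (row 38 via S44), brick KUM-U2 (helper48), file 1: TRANSLATIONS AND `q`-EXPANSIONS.

`HasQExp f g` (X0/Analytic): `g : ℍ → ℂ` has the convergent `q`-expansion `f`.  For a real `r` the
translate `z ↦ g (r +ᵥ z)` has the expansion obtained by multiplying the `n`-th coefficient by
`ζ ^ n`, `ζ = exp (2 π i r)`.  Consequence used for the distinctness of the embeddings
`h ↦ h ((z + j) / q)`:

* `coeff_mul_eq_of_periodic` : if `g (r +ᵥ z) = g z` for all `z` then `f.coeff n * ζ ^ n = f.coeff n`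
  (as integer powers), for all `n : ℤ`.
-/
import Fermat.Agent.X0.Analytic

set_option autoImplicit false

open ModularCurve HahnSeries UpperHalfPlane
open scoped Topology Real

noncomputable section

namespace Fermat.Agent.T1B.KumU48.Translate

open Fermat.Agent.X0 Fermat.Agent.X0.Analytic Fermat.Agent.X0.JQExp

/-- `ζ_r = exp (2 π i r)`. -/
def zetaR (r : ℝ) : ℂ := Complex.exp (2 * π * Complex.I * r)

theorem zetaR_ne_zero (r : ℝ) : zetaR r ≠ 0 := Complex.exp_ne_zero _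

theorem norm_zetaR (r : ℝ) : ‖zetaR r‖ = 1 := by
  unfold zetaR
  have h : (2 * π * Complex.I * r : ℂ) = ((2 * π * r : ℝ) : ℂ) * Complex.I := by
    push_cast; ring
  rw [h, Complex.norm_exp_ofReal_mul_I]

theorem qH_vadd (r : ℝ) (z : ℍ) : qH (r +ᵥ z) = zetaR r * qH z := by
  unfold qH zetaR Function.Periodic.qParam
  rw [UpperHalfPlane.coe_vadd, ← Complex.exp_add]
  congr 1
  push_cast
  ring

/-- The Taylor series of `q ↦ G (ζ q)`, `‖ζ‖ = 1`. -/
theorem tps_comp_mul {G : ℂ → ℂ} (hG : DifferentiableOn ℂ G (Metric.ball 0 1)) {ζ : ℂ}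
    (hζ : ‖ζ‖ = 1) :
    tps (fun q => G (ζ * q)) = PowerSeries.mk fun n => PowerSeries.coeff n (tps G) * ζ ^ n := by
  apply tps_eq_of_hasSum
  intro q hq
  have hq' : ‖ζ * q‖ < 1 := by rw [norm_mul, hζ, one_mul]; exact hq
  have h1 := hasSum_tps hG hq'
  refine h1.congr_fun fun n => ?_
  rw [mul_pow]
  ring

theorem diffOn_comp_mul {G : ℂ → ℂ} (hG : DifferentiableOn ℂ G (Metric.ball 0 1)) {ζ : ℂ}
    (hζ : ‖ζ‖ = 1) : DifferentiableOn ℂ (fun q => G (ζ * q)) (Metric.ball 0 1) := by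
  have hmaps : Set.MapsTo (fun q : ℂ => ζ * q) (Metric.ball 0 1) (Metric.ball 0 1) := by
    intro q hq
    rw [mem_ball_zero_iff] at hq ⊢
    rw [norm_mul, hζ, one_mul]
    exact hq
  exact hG.comp ((differentiableOn_const ζ).mul differentiableOn_id) hmaps

/-- the coefficients of `lau m p`. -/
theorem lau_coeff (m : ℕ) (p : PowerSeries ℂ) (k : ℕ) :
    (lau m p).coeff ((k : ℤ) - m) = PowerSeries.coeff k p := by
  unfold lau
  have h : ((k : ℤ) - m) = (k : ℤ) + -(m : ℤ) := by ring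
  rw [h, mul_comm, HahnSeries.coeff_mul_single_add, mul_one, HahnSeries.ofPowerSeries_apply_coeff]

theorem lau_coeff_of_lt (m : ℕ) (p : PowerSeries ℂ) {n : ℤ} (hn : n < -(m : ℤ)) :
    (lau m p).coeff n = 0 := by
  unfold lau
  have h : n = (n + m) + -(m : ℤ) := by ring
  rw [h, mul_comm, HahnSeries.coeff_mul_single_add, mul_one]
  exact ofPowerSeries_coeff_of_neg _ (by omega)

/-- **Periodicity and coefficients.**  If `g` has the `q`-expansion `f` and `g (r +ᵥ z) = g z` for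
all `z`, then `f.coeff n * ζ ^ n = f.coeff n`, `ζ = exp (2 π i r)`. -/
theorem coeff_mul_eq_of_periodic {f : LaurentSeries ℂ} {g : ℍ → ℂ} (h : HasQExp f g) (r : ℝ)
    (hper : ∀ z : ℍ, g (r +ᵥ z) = g z) (n : ℤ) :
    f.coeff n * zetaR r ^ n = f.coeff n := by
  obtain ⟨m, G, hG, hf, hg⟩ := h
  have hζ := norm_zetaR r
  have hζ0 := zetaR_ne_zero r
  -- the translate has the expansion with `G' q = ζ⁻¹ ^ m * G (ζ q)`
  have h' : HasQExp (lau m (tps fun q => (zetaR r)⁻¹ ^ m * G (zetaR r * q))) g := by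
    refine ⟨m, fun q => (zetaR r)⁻¹ ^ m * G (zetaR r * q),
      (differentiableOn_const _).mul (diffOn_comp_mul hG hζ), rfl, fun z => ?_⟩
    have h1 := hg (r +ᵥ z)
    rw [hper, qH_vadd] at h1
    show g z * qH z ^ m = (zetaR r)⁻¹ ^ m * G (zetaR r * qH z)
    rw [← h1, mul_pow, inv_pow]
    have : zetaR r ^ m ≠ 0 := pow_ne_zero _ hζ0
    field_simp
  have h0 : HasQExp f g := ⟨m, G, hG, hf, hg⟩
  have e := h0.unique_left h'
  have hG2 : AnalyticAt ℂ (fun q => G (zetaR r * q)) 0 :=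
    analyticAt_zero_of_diffOn (diffOn_comp_mul hG hζ)
  have e2 : tps (fun q => (zetaR r)⁻¹ ^ m * G (zetaR r * q)) =
      PowerSeries.C ((zetaR r)⁻¹ ^ m) * tps (fun q => G (zetaR r * q)) := by
    have := tps_mul (f := fun _ => (zetaR r)⁻¹ ^ m) (g := fun q => G (zetaR r * q))
      analyticAt_const hG2
    rw [tps_const] at this
    exact this
  rcases lt_or_ge n (-(m : ℤ)) with hn | hn
  · rw [hf, lau_coeff_of_lt m _ hn, zero_mul]
  · obtain ⟨k, hk⟩ : ∃ k : ℕ, n = (k : ℤ) - m := ⟨(n + m).toNat, by omega⟩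
    have c1 : f.coeff n = PowerSeries.coeff k (tps G) := by rw [hf, hk, lau_coeff]
    have c2 : f.coeff n = (zetaR r)⁻¹ ^ m * (PowerSeries.coeff k (tps G) * zetaR r ^ k) := by
      rw [e, hk, lau_coeff, e2, PowerSeries.coeff_C_mul, tps_comp_mul hG hζ, PowerSeries.coeff_mk]
    rw [hk, zpow_sub₀ hζ0, zpow_natCast, zpow_natCast, ← hk]
    rw [c1] at c2 ⊢
    rw [div_eq_mul_inv, ← inv_pow]
    linear_combination -c2

end Fermat.Agent.T1B.KumU48.Translate
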