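/-
Programme T1B (row 38 via S44), brick KUM-U2 (helper48), file 2: THE `q` EMBEDDINGS FOR `U_q`.

`q ∣ N` prime, `F = F̄_N`, `F' = F̄_{Nq}`, `α, β : F → F'` the two degeneracy embeddings
(`α` = inclusion, `β` = `𝐪 ↦ 𝐪^q`).  The operator `U_q := β_* α^*` (= the Prelude's
`heckePic0BarTranspose`) is computed by the NORM ALONG `β`; the `q` embeddings of `F'` into `MerH` over
`an ∘ β⁻¹` are

  `sigmaU j y = (an' y) ∘ β_j`,   `β_j = !![1, j; 0, q]`  (`z ↦ (z + j) / q`),   `j : ZMod q`.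

* `betaMer_some_betaMer_none` : `(h ∘ β_∞) ∘ β_j = h ∘ T^j`;
* `sigmaU_beta`  : `sigmaU j (β f) = an f`;
* `sigmaU_alpha` : `sigmaU j (α f) = (an f) ∘ β_j`;
* `sigmaU_injective` : the `sigmaU j` are pairwise distinct (they differ on `j`, by `q`-expansions).
-/
import Fermat.Agent.T1B.KumU48.Translate
import Fermat.Agent.ES.HEQ.RealBar19

set_option autoImplicit false
set_option linter.style.haveILetI false
set_option linter.unusedSectionVars false

open UpperHalfPlane hiding I
open scoped Manifold MatrixGroups Real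
open CongruenceSubgroup

noncomputable section

namespace Fermat.Agent.T1B.KumU48.SigmaU

open Fermat.Agent.X0 Fermat.Agent.X0.Analytic Fermat.Agent.X0.SurjPoint Fermat.Agent.ES.KUM
open Fermat.Agent.ES.HEQ.DoubleCoset27 Fermat.Agent.ES.HEQ.BetaMer19
open Fermat.Agent.ES.HEQ.QExpMer19 Fermat.Agent.ES.HEQ.RealBar19 ModularCurve
open Fermat.Agent.T1B.KumU48.Translate

variable {q : ℕ} [hq : Fact q.Prime]

/-! ### The action of `β_j` on `ℍ` -/

theorem coe_glBeta_some_smul (j : ZMod q) (z : ℍ) :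
    ((glBeta q (some j) • z : ℍ) : ℂ) = ((z : ℂ) + (j.val : ℂ)) / (q : ℂ) := by
  rw [glBeta_some]
  exact_mod_cast ModularForm.coe_heckeMatrix_smul hq.out.ne_zero j.val z

theorem coe_glBeta_none_smul (z : ℍ) :
    ((glBeta q none • z : ℍ) : ℂ) = (q : ℂ) * (z : ℂ) := by
  rw [glBeta_none]
  exact ModularForm.coe_heckeDiagMatrix_smul hq.out.ne_zero z

/-- `β_∞ (β_j z) = T^j z`. -/
theorem glBeta_none_smul_some_smul (j : ZMod q) (z : ℍ) :
    glBeta q none • (glBeta q (some j) • z) = (ModularGroup.T ^ (j.val : ℤ)) • z := by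
  apply UpperHalfPlane.ext
  rw [coe_glBeta_none_smul, coe_glBeta_some_smul, UpperHalfPlane.modular_T_zpow_smul,
    UpperHalfPlane.coe_vadd]
  have hq0 : (q : ℂ) ≠ 0 := Nat.cast_ne_zero.mpr hq.out.ne_zero
  push_cast
  field_simp
  ring

theorem T_zpow_mem_Gamma0 (N : ℕ) (n : ℤ) : ModularGroup.T ^ n ∈ Gamma0 N := by
  rw [Gamma0_mem, ModularGroup.coe_T_zpow]
  simp

/-- `(h ∘ β_∞) ∘ β_j = h ∘ T^j` on meromorphic functions. -/
theorem betaMer_some_betaMer_none (j : ZMod q) (h : MerH) :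
    betaMer q (some j) (betaMer q none h) = slMer (ModularGroup.T ^ (j.val : ℤ)) h := by
  obtain ⟨a, b, -, rfl⟩ := exists_div_MerH h
  unfold betaMer
  rw [glMer_div, glMer_div, slMer_div]
  have key : ∀ c : HolH, glHom (glBeta q (some j)) (det_glBeta_pos (some j))
      (glHom (glBeta q none) (det_glBeta_pos none) c) =
        compSLHom (ModularGroup.T ^ (j.val : ℤ)) c := by
    intro c
    apply Subtype.ext
    funext z
    show c.1 (glBeta q none • (glBeta q (some j) • z)) = c.1 ((ModularGroup.T ^ (j.val : ℤ)) • z)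
    rw [glBeta_none_smul_some_smul]
  rw [key, key]

/-! ### The embeddings -/

variable (N : ℕ) [NeZero N]

/-- the embeddings `F̄_{Nq} → MerH`, `y ↦ (an' y) ∘ β_j`. -/
def sigmaU (j : ZMod q) : FF (N * q) →+* MerH :=
  (betaMer q (some j)).comp (anBar (N * q))

theorem sigmaU_apply (j : ZMod q) (y : FF (N * q)) :
    sigmaU N j y = betaMer q (some j) (anBar (N * q) y) := rfl

theorem sigmaU_beta (j : ZMod q) (f : FF N) :
    sigmaU N j (heckeBetaBar Kbar N q f) = anBar N f := by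
  rw [sigmaU_apply, anBar_beta, betaMer_some_betaMer_none,
    slMer_anBar_of_mem N _ (T_zpow_mem_Gamma0 N _)]

theorem sigmaU_alpha (j : ZMod q) (f : FF N) :
    sigmaU N j (heckeAlphaBar Kbar N q f) = betaMer q (some j) (anBar N f) := by
  rw [sigmaU_apply, anBar_alpha]

/-! ### Distinctness -/

/-- the element `j` of `R_N = ℚbar[j_d]`. -/
def jR : Rsub N := ⟨jF N, Algebra.subset_adjoin ⟨1, inferInstance, one_dvd N, rfl⟩⟩

theorem coe_jR : ((jR N : Rsub N) : FF N) = jF N := rfl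

theorem coeff_jF : ((jF N : FF N) : LaurentSeries Kbar).coeff (-1) = 1 := by
  show (ModularCurve.coeffEmb Kbar (ModularCurve.qExpand ℚ 1 ModularCurve.jq)).coeff (-1) = 1
  rw [ModularCurve.coeffEmb_coeff]
  have h := ModularCurve.qExpand_coeff_mul (R := ℚ) 1 ModularCurve.jq (-1)
  have e : ((1 : ℕ) : ℤ) * (-1 : ℤ) = -1 := by norm_num
  rw [e] at h
  rw [h, ModularCurve.coeff_jq_neg_one, map_one]

theorem zetaR_eq_one_iff (r : ℝ) : zetaR r = 1 ↔ ∃ n : ℤ, r = n := by
  unfold zetaR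
  rw [Complex.exp_eq_one_iff]
  have hpi : (2 * (π : ℂ) * Complex.I) ≠ 0 := by
    simp [Real.pi_ne_zero]
  constructor
  · rintro ⟨n, hn⟩
    refine ⟨n, ?_⟩
    have h1 : (2 * (π : ℂ) * Complex.I) * (r : ℂ) = (2 * (π : ℂ) * Complex.I) * (n : ℂ) := by
      rw [hn]; ring
    have h2 := mul_left_cancel₀ hpi h1
    exact_mod_cast h2
  · rintro ⟨n, rfl⟩
    exact ⟨n, by push_cast; ring⟩

theorem sigmaU_injective : Function.Injective (sigmaU (q := q) N) := by
  intro j k h
  have hq0 : (q : ℝ) ≠ 0 := Nat.cast_ne_zero.mpr hq.out.ne_zero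
  have hqpos : (0 : ℝ) < q := by exact_mod_cast hq.out.pos
  haveI : NeZero q := ⟨hq.out.ne_zero⟩
  -- apply to `α j`
  have h1 := DFunLike.congr_fun h (heckeAlphaBar Kbar N q ((jR N : Rsub N) : FF N))
  rw [sigmaU_alpha, sigmaU_alpha, anBar_coe] at h1
  unfold betaMer at h1
  rw [glMer_algebraMap, glMer_algebraMap] at h1
  have h2 := IsFractionRing.injective HolH MerH h1
  have h3 : ∀ z : ℍ, realize N (jR N) (glBeta q (some j) • z) =
      realize N (jR N) (glBeta q (some k) • z) :=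
    fun z => congrFun (congrArg Subtype.val h2) z
  -- periodicity
  set r : ℝ := ((j.val : ℝ) - (k.val : ℝ)) / q with hr
  have hper : ∀ w : ℍ, realize N (jR N) (r +ᵥ w) = realize N (jR N) w := by
    intro w
    set z : ℍ := (-(k.val : ℝ)) +ᵥ scaleH q w with hz
    have e1 : glBeta q (some k) • z = w := by
      apply UpperHalfPlane.ext
      rw [coe_glBeta_some_smul, hz, UpperHalfPlane.coe_vadd, coe_scaleH]
      have hq0' : (q : ℂ) ≠ 0 := Nat.cast_ne_zero.mpr hq.out.ne_zero
      push_cast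
      field_simp
      ring
    have e2 : glBeta q (some j) • z = r +ᵥ w := by
      apply UpperHalfPlane.ext
      rw [coe_glBeta_some_smul, hz, UpperHalfPlane.coe_vadd, UpperHalfPlane.coe_vadd, coe_scaleH, hr]
      have hq0' : (q : ℂ) ≠ 0 := Nat.cast_ne_zero.mpr hq.out.ne_zero
      push_cast
      field_simp
      ring
    rw [← e2, ← e1, h3 z, e1]
  have hexp := hasQExp_realize N (jR N)
  have e := coeff_mul_eq_of_periodic hexp r hper (-1)
  rw [toC_coeff, coe_jR, coeff_jF, map_one, one_mul, zpow_neg_one, inv_eq_one] at e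
  obtain ⟨n, hn⟩ := (zetaR_eq_one_iff r).mp e
  -- `j.val - k.val = n q`, `|j.val - k.val| < q`
  have hj : j.val < q := ZMod.val_lt j
  have hk : k.val < q := ZMod.val_lt k
  have e1 : ((j.val : ℤ) - (k.val : ℤ) : ℝ) = ((n * q : ℤ) : ℝ) := by
    rw [hr, div_eq_iff hq0] at hn
    push_cast
    exact hn
  have e2 : (j.val : ℤ) - (k.val : ℤ) = n * q := by exact_mod_cast e1
  have hn0 : n = 0 := by
    by_contra hne
    rcases lt_or_gt_of_ne hne with hlt | hgt
    · have : n ≤ -1 := by omega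
      nlinarith
    · have : 1 ≤ n := by omega
      nlinarith
  rw [hn0, zero_mul] at e2
  apply ZMod.val_injective q
  omega

end Fermat.Agent.T1B.KumU48.SigmaU
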