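/-
Programme T1B (row 38 via S44), brick KUM-U2 (helper48), file 3: THE KUMMER MAP INTERTWINES `U_q`.

`q ∣ N` prime.  `U_q := β_* α^* = Pic0.correspondence α β` (pull back along the inclusion
`α : F̄_N → F̄_{Nq}`, push forward along `β : 𝐪 ↦ 𝐪^q`) `= heckePic0BarTranspose` of the Prelude.

**`kummer_heckeU`** : for every map `κ : J₀(N)(ℚbar)[n] → Hom(Γ₀(N), ℂˣ)` with the Kummer
characterisation `KummerHeckeMain19.IsKummerMap`,

  `κ (U_q x) = UqMul (κ x)`,   `UqMul χ γ = ∏_{j : ZMod q} χ (UqOp28.cocU γ j)`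

(the multiplicative form of `ES/LR/UqOp28.UqAdd`).  Twin of `KummerHeckeMain19.kummer_hecke`
(`ℓ ∤ N`, `T_ℓ = α_* β^*`, index set `P¹(F_ℓ)`): here the index set is `ZMod q`, the `q` embeddings are
`SigmaU.sigmaU` and the norm is taken along `β`.
-/
import Fermat.Agent.T1B.KumU48.SigmaU
import Fermat.Agent.ES.HEQ.KummerHeckeMain19
import Fermat.Agent.ES.LR.UqOp28
import Fermat.Agent.ES.P36.HeckeDeg19

set_option autoImplicit false
set_option linter.style.haveILetI false
set_option linter.unusedSectionVars false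

open UpperHalfPlane hiding I
open scoped Manifold MatrixGroups
open CongruenceSubgroup AlgebraicCurve

noncomputable section

namespace Fermat.Agent.T1B.KumU48.KummerU

open Fermat.Agent.X0 Fermat.Agent.X0.SurjPoint Fermat.Agent.ES.KUM
open Fermat.Agent.ES.HEQ.DoubleCoset27 Fermat.Agent.ES.HEQ.BetaMer19
open Fermat.Agent.ES.HEQ.RealBar19 Fermat.Agent.ES.HEQ.KummerHeckeAbs19
open Fermat.Agent.ES.HEQ.KummerHeckeMain19 ModularCurve
open Fermat.Agent.ES.LR.UqOp28 Fermat.Agent.T1B.KumU48.SigmaU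

variable {N q : ℕ} [NeZero N] [hq : Fact q.Prime] (hqN : q ∣ N)

/-! ### `U_q` on characters, multiplicatively -/

/-- The operator `U_q` on characters `Γ₀(N) →* M` (multiplicative form of `UqOp28.UqAdd`). -/
def UqMul {M : Type*} [CommGroup M] (χ : Gamma0 N →* M) : Gamma0 N →* M where
  toFun γ := ∏ j : ZMod q, χ (cocU hqN γ j)
  map_one' := by
    have h : ∀ j : ZMod q, cocU hqN (1 : Gamma0 N) j = 1 := fun j =>
      Subtype.ext (by rw [coe_cocU]; simp)
    simp [h]
  map_mul' γ δ := by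
    simp only [cocU_mul hqN, map_mul, Finset.prod_mul_distrib]
    congr 1
    exact Equiv.prod_comp (permU γ) (fun j => χ (cocU hqN δ j))

theorem UqMul_apply {M : Type*} [CommGroup M] (χ : Gamma0 N →* M) (γ : Gamma0 N) :
    UqMul hqN χ γ = ∏ j : ZMod q, χ (cocU hqN γ j) := rfl

/-! ### The analytic setup for `(β, α)` -/

/-- the double coset relation for the finite representatives, on `Γ₀(N)`, `q ∣ N`. -/
theorem slMer_betaMer_some (γ : Gamma0 N) (j : ZMod q) (h : MerH) :
    slMer (γ : SL(2, ℤ)) (betaMer q (some j) h) =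
      betaMer q (some (permU γ j)) (slMer ((cocU hqN γ j : Gamma0 N) : SL(2, ℤ)) h) := by
  rw [slMer_betaMer, some_permU hqN, coe_cocU]

/-- The concrete instance of the abstract analytic interface `KummerHeckeAbs19.Setup` for the pair
`(β, α)` (norm along `β`), index set `ZMod q`. -/
def setupU : Setup (K := Kbar) (heckeBetaBar Kbar N q) (heckeAlphaBar Kbar N q)
    (fun γ : Gamma0 N => (permU γ : Equiv.Perm (ZMod q)))
    (fun (γ : Gamma0 N) (j : ZMod q) => cocU hqN γ j) MerH ℂˣ where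
  an := anBar N
  σ := sigmaU N
  R := fun γ => slMer (γ : SL(2, ℤ))
  B := fun j => betaMer q (some j)
  c := constHom
  σ_alpha := sigmaU_beta N
  σ_beta := sigmaU_alpha N
  σ_inj := sigmaU_injective N
  card_eq := by
    haveI : NeZero q := ⟨hq.out.ne_zero⟩
    rw [Fermat.Agent.ES.P36.HeckeDeg19.finrankAlong_beta_of_dvd Kbar N q hq.out hqN, ZMod.card]
  R_B := fun γ j h => slMer_betaMer_some hqN γ j h
  R_c := fun γ a => slMer_const (γ : SL(2, ℤ)) (a : ℂ)
  B_c := fun j a => betaMer_const (some j) (a : ℂ)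

/-! ### The main theorem -/

section Main

variable (hα : HeckeAlphaBarIntegral Kbar N q) (hβ : HeckeBetaBarIntegral Kbar N q)
  [HasPrincipalDivisors Kbar (laurentBaseChange Kbar (modularFunctionFieldFull (N * q)))]
  (hFI : FundamentalIdentityAlong Kbar (heckeAlphaBar Kbar N q) hα)
  (hfin : FiniteAlong Kbar (heckeBetaBar Kbar N q))
  (hN : NormFormulaAlong Kbar (heckeBetaBar Kbar N q) hfin)

theorem heckeU_mem_torsion (n : ℕ) (x : ↥(Pic0.torsion Kbar (FF N) n)) :
    heckePic0BarTranspose hα hβ hFI hfin hN (x : Pic0 Kbar (FF N)) ∈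
      Pic0.torsion Kbar (FF N) n := by
  rw [Pic0.mem_torsion, ← map_zsmul, Pic0.mem_torsion.mp x.2, map_zero]

/-- **KUM-U2: the Kummer map intertwines `U_q = β_* α^*` with `UqMul`.** -/
theorem kummer_heckeU {n : ℕ} {κ : ↥(Pic0.torsion Kbar (FF N) n) → (↥(Gamma0 N) →* ℂˣ)}
    (hκ : IsKummerMap N n κ) (x : ↥(Pic0.torsion Kbar (FF N) n)) :
    κ ⟨heckePic0BarTranspose hα hβ hFI hfin hN (x : Pic0 Kbar (FF N)),
        heckeU_mem_torsion hα hβ hFI hfin hN n x⟩ = UqMul hqN (κ x) := by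
  classical
  obtain ⟨D, f, hD, hf, hDf⟩ := exists_rep_div n x
  obtain ⟨⟨h, hh0, hhn⟩, hchar⟩ := hκ x D f hD hf hDf
  -- the witness at `x`
  have w : Witness (setupU hqN) n f h (fun γ => κ x γ) := ⟨hhn, fun γ => hchar h hh0 hhn γ⟩
  have w' := w.hecke hfin
  -- the transform
  set DT : Divisor.degZero (K := Kbar) (F := FF N) :=
    Pic0.degZeroCorrespondence (heckeAlphaBar Kbar N q) (heckeBetaBar Kbar N q) hα hβ hFI D with hDT
  have hTx : Pic0.mk DT = heckePic0BarTranspose hα hβ hFI hfin hN (x : Pic0 Kbar (FF N)) := by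
    rw [← hD]
    rfl
  have hfT : normAlong (heckeBetaBar Kbar N q) (heckeAlphaBar Kbar N q f) ≠ 0 :=
    normAlong_ne_zero _ hfin ((map_ne_zero _).mpr hf)
  have hDTf : ∀ v : Place Kbar (FF N), ((n : ℤ) • (DT : Divisor Kbar (FF N))) v =
      v.ord (normAlong (heckeBetaBar Kbar N q) (heckeAlphaBar Kbar N q f)) := by
    intro v
    have h1 : ((n : ℤ) • (DT : Divisor Kbar (FF N))) =
        Divisor.correspondence (heckeAlphaBar Kbar N q) (heckeBetaBar Kbar N q) hα hβ
          ((n : ℤ) • (D : Divisor Kbar (FF N))) := by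
      rw [map_zsmul]
      rfl
    rw [h1]
    exact correspondence_apply_eq_ord _ _ hα hβ hfin hN hf hDf v
  obtain ⟨-, hchar'⟩ := hκ ⟨heckePic0BarTranspose hα hβ hFI hfin hN (x : Pic0 Kbar (FF N)),
    heckeU_mem_torsion hα hβ hFI hfin hN n x⟩ DT _ hTx hfT hDTf
  have hroot0 : heckeRoot (setupU hqN) h ≠ 0 := heckeRoot_ne_zero _ hh0
  ext1 γ
  have e1 := hchar' _ hroot0 w'.pow γ
  have e2 := w'.smul γ
  have e3 : constHom (κ ⟨heckePic0BarTranspose hα hβ hFI hfin hN (x : Pic0 Kbar (FF N)),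
      heckeU_mem_torsion hα hβ hFI hfin hN n x⟩ γ) = constHom (∏ j, κ x (cocU hqN γ j)) :=
    mul_right_cancel₀ hroot0 (e1.symm.trans e2)
  rw [UqMul_apply]
  exact constHom_injective e3

end Main

end Fermat.Agent.T1B.KumU48.KummerU
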