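/-
Programme T1B (row 38 via S44), brick KUM-U2 (helper48), file 4: CONSUMER FORMS (classical `U_q`).

`q ∣ N` prime.  The CLASSICAL operator `U_q = β_* α^*` on `J₀(N)(ℚbar)` (the convention adopted by
T1B: it matches `a_n ↦ a_{qn}` on `q`-expansions and `ES/LR/UqOp28.UqAdd` on the lattice):

* `heckeUAlong hqN : Pic0 ℚbar F̄_N →+ Pic0 ℚbar F̄_N` := `heckePic0BarTranspose` with the inputs of
  `ES/P36/HeckeDeg19` + `FundIdentity19`;   `heckeUBar hqN : Module.End ℤ (JZero N)`;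
* `UqX hqN : X Γ₀(N) →+ X Γ₀(N)`, the additive form of `KummerU.UqMul`
  (`toMul (UqX χ) γ = ∏ j : ZMod q, toMul χ (UqOp28.cocU hqN γ j)`);
* **`kumQ_heckeU`, `kumQAdd_heckeU`, `kumQAdd_heckeUBar`** : the Kummer map `κ_n` of J1 + J2
  (`KummerHeckeQ19.kumQ`, `kumQAdd`) intertwines `U_q` with `UqMul` / `UqX`;
* `fullEquiv_UqX` : `TateChar11.fullEquiv` intertwines `UqX` on characters with `UqOp28.UqAdd` on
  `Hom(Γ₀(N), ℤ_p)`.

The Prelude's `heckeOperatorBar N q = α_* β^*` (the ADJOINT `U_q^*`) is treated by helper6's `KumU6`.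
-/
import Fermat.Agent.T1B.KumU48.KummerU
import Fermat.Agent.ES.HEQ.KummerHeckeQ19

set_option autoImplicit false
set_option linter.style.haveILetI false
set_option linter.unusedSectionVars false

open UpperHalfPlane hiding I
open scoped Manifold MatrixGroups
open CongruenceSubgroup AlgebraicCurve

noncomputable section

namespace Fermat.Agent.T1B.KumU48

open Fermat.Agent.X0 Fermat.Agent.X0.SurjPoint Fermat.Agent.ES.KUM
open Fermat.Agent.ES.HEQ.DoubleCoset27 Fermat.Agent.ES.HEQ.KummerHeckeMain19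
open Fermat.Agent.ES.HEQ.KummerHeckeQ19 ModularCurve
open Fermat.Agent.ES.J.TateChar11 Fermat.Agent.ES.J.TateModule13 Fermat.Agent.ES.LR.UqOp28
open Fermat.Agent.ES.HECKE.InputsMain19 Fermat.Agent.ES.P36.HeckeDeg19
open Fermat.Agent.RED.TOP
open Fermat.Agent.T1B.KumU48.KummerU

section Def

variable (N q : ℕ) [NeZero N] [hq : Fact q.Prime] (hqN : q ∣ N)

/-- the fundamental identity along `α`, `q ∣ N`. -/
theorem fundamentalIdentityAlong_alpha_of_dvd :
    haveI : NeZero q := ⟨hq.out.ne_zero⟩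
    haveI := hasPrincipalDivisors_level N q
    FundamentalIdentityAlong Qb (heckeAlphaBar Qb N q)
      (heckeAlphaBarIntegral_of_dvd Qb N q hq.out hqN) := by
  haveI : NeZero q := ⟨hq.out.ne_zero⟩
  haveI := hasPrincipalDivisors_level N q
  exact Fermat.Agent.ES.HECKE.FundIdentity19.fundamentalIdentityAlong (heckeAlphaBar Qb N q)
    (heckeAlphaBarIntegral_of_dvd Qb N q hq.out hqN)
    (finiteAlong_alpha_of_dvd Qb N q hq.out hqN)
    (FbarFacts20.isGen_j N) (FbarFacts20.isGen_j (N * q))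

/-- **The classical `U_q = β_* α^*`** on `Pic⁰` of `F̄_N`, `q ∣ N`. -/
def heckeUAlong : Pic0 Qb (FF N) →+ Pic0 Qb (FF N) :=
  haveI : NeZero q := ⟨hq.out.ne_zero⟩
  haveI := hasPrincipalDivisors_level N q
  heckePic0BarTranspose (heckeAlphaBarIntegral_of_dvd Qb N q hq.out hqN)
    (heckeBetaBarIntegral_of_dvd Qb N q hq.out hqN)
    (fundamentalIdentityAlong_alpha_of_dvd N q hqN)
    (finiteAlong_beta_of_dvd Qb N q hq.out hqN)
    (normFormulaAlong_beta_of_dvd N q hq.out hqN)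

/-- **The classical `U_q`** on `J₀(N)(ℚbar)`. -/
def heckeUBar : Module.End ℤ (JZero N) := (heckeUAlong N q hqN).toIntLinearMap

theorem heckeUBar_apply (x : JZero N) : heckeUBar N q hqN x = heckeUAlong N q hqN x := rfl

end Def

section Characters

variable {N q : ℕ} [NeZero N] [hq : Fact q.Prime] (hqN : q ∣ N)

theorem UqMul_one {M : Type*} [CommGroup M] : UqMul hqN (1 : Gamma0 N →* M) = 1 := by
  ext γ
  simp [UqMul_apply]

theorem UqMul_mul {M : Type*} [CommGroup M] (χ ψ : Gamma0 N →* M) :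
    UqMul hqN (χ * ψ) = UqMul hqN χ * UqMul hqN ψ := by
  ext γ
  simp [UqMul_apply, Finset.prod_mul_distrib]

/-- The classical `U_q` on the characters of `Γ₀(N)`, additively. -/
def UqX : X (Gamma0 N) →+ X (Gamma0 N) where
  toFun χ := Additive.ofMul (UqMul hqN (Additive.toMul χ))
  map_zero' := by
    show Additive.ofMul (UqMul hqN (1 : Gamma0 N →* ℂˣ)) = 0
    rw [UqMul_one]; rfl
  map_add' χ ψ := by
    show Additive.ofMul (UqMul hqN (Additive.toMul χ * Additive.toMul ψ))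
      = Additive.ofMul (UqMul hqN (Additive.toMul χ))
        + Additive.ofMul (UqMul hqN (Additive.toMul ψ))
    rw [UqMul_mul]; rfl

theorem UqX_apply (χ : X (Gamma0 N)) (γ : Gamma0 N) :
    (Additive.toMul (UqX hqN χ)) γ
      = ∏ j : ZMod q, (Additive.toMul χ) (cocU hqN γ j) := rfl

theorem toMul_UqX (χ : X (Gamma0 N)) :
    Additive.toMul (UqX hqN χ) = UqMul hqN (Additive.toMul χ) := rfl

/-- `fullEquiv` intertwines `UqX` on characters with `UqAdd` on `Hom(Γ₀(N), ℤ_p)`. -/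
theorem fullEquiv_UqX {p : ℕ} [Fact p.Prime] (x : TateModule p (X (Gamma0 N))) :
    fullEquiv p (Gamma0 N) (map (UqX hqN) x) = UqAdd hqN (fullEquiv p (Gamma0 N) x) := by
  refine AddMonoidHom.ext fun γ => ?_
  have h := fullEquiv_map_of_prod (p := p) (Finset.univ : Finset (ZMod q))
    (fun j γ => cocU hqN γ j) (UqX hqN) (fun χ γ => UqX_apply hqN χ γ) x (Additive.toMul γ)
  exact h

end Characters

section Q

variable {N q : ℕ} [NeZero N] [hq : Fact q.Prime] (hqN : q ∣ N)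
variable (n : ℕ) [NeZero n] [Finite (Pic0.torsion ℂ (FC N) n)]

theorem heckeUAlong_mem_torsion (x : ↥(Pic0.torsion Kbar (FF N) n)) :
    heckeUAlong N q hqN (x : Pic0 Kbar (FF N)) ∈ Pic0.torsion Kbar (FF N) n := by
  rw [Pic0.mem_torsion, ← map_zsmul, Pic0.mem_torsion.mp x.2, map_zero]

/-- **KUM-U2 (classical), multiplicative form.** -/
theorem kumQ_heckeU (x : ↥(Pic0.torsion Kbar (FF N) n))
    (hx : heckeUAlong N q hqN (x : Pic0 Kbar (FF N)) ∈ Pic0.torsion Kbar (FF N) n) :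
    kumQ N n ⟨heckeUAlong N q hqN (x : Pic0 Kbar (FF N)), hx⟩ = UqMul hqN (kumQ N n x) := by
  haveI : NeZero q := ⟨hq.out.ne_zero⟩
  haveI := hasPrincipalDivisors_level N q
  exact kummer_heckeU hqN _ _ _ _ _ (isKummerMap_kumQ N n) x

/-- **KUM-U2 (classical), additive form.** -/
theorem kumQAdd_heckeU (x : ↥(Pic0.torsion Kbar (FF N) n))
    (hx : heckeUAlong N q hqN (x : Pic0 Kbar (FF N)) ∈ Pic0.torsion Kbar (FF N) n) :
    kumQAdd N n ⟨heckeUAlong N q hqN (x : Pic0 Kbar (FF N)), hx⟩ = UqX hqN (kumQAdd N n x) := by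
  apply Additive.toMul.injective
  exact kumQ_heckeU hqN n x hx

/-- **KUM-U2 (classical) for `heckeUBar`** on `tors (JZero N) n`: the hypothesis `hf` of
`TateChar11.KummerSystem.tateEquiv_map` with `f := (heckeUBar N q hqN).toAddMonoidHom`. -/
theorem kumQAdd_heckeUBar (x : ↥(tors (JZero N) n))
    (hx : heckeUBar N q hqN (x : JZero N) ∈ tors (JZero N) n) :
    kumQAdd N n ⟨heckeUBar N q hqN (x : JZero N), hx⟩ = UqX hqN (kumQAdd N n x) :=
  kumQAdd_heckeU hqN n x hx

end Q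

end Fermat.Agent.T1B.KumU48
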