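/-
Programme T1B (row 38 via S44), brick KUM-U2 (helper48), file 5: `U_q` COMMUTES WITH `Gal(ℚ̄/ℚ)`.

`heckeUBar N q hqN (σ • x) = σ • heckeUBar N q hqN x` for the classical `U_q = β_* α^*`, `q ∣ N`
(twin of `ES/HECKE/HeckeGalois12.heckeOperatorBar_smul`; the generic
`HeckeGalois12.pic0_correspondence_smul` applies with the roles of `α`, `β` exchanged).
-/
import Fermat.Agent.T1B.KumU48.KumQU
import Fermat.Agent.ES.HECKE.HeckeGalois12

set_option autoImplicit false
set_option synthInstance.maxHeartbeats 400000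
set_option linter.unusedSectionVars false
set_option linter.style.haveILetI false

noncomputable section

open AlgebraicCurve ModularCurve

namespace Fermat.Agent.T1B.KumU48

open Fermat.Agent.ES.RED.PullbackInj12 Fermat.Agent.ES.HECKE.HeckeGalois12
open Fermat.Agent.ES.HECKE.InputsMain19 Fermat.Agent.ES.P36.HeckeDeg19

variable (N q : ℕ) [NeZero N] [hq : Fact q.Prime] (hqN : q ∣ N)

/-- **`U_q (σ • x) = σ • U_q x`** on `J₀(N)(ℚ̄)`. -/
theorem heckeUAlong_smul (σ : Qb ≃ₐ[ℚ] Qb) (x : JZero N) :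
    heckeUAlong N q hqN (σ • x) = σ • heckeUAlong N q hqN x := by
  haveI : NeZero q := ⟨hq.out.ne_zero⟩
  haveI := hasPrincipalDivisors_level N q
  rw [galois_smul_pic0_def, galois_smul_pic0_def]
  exact pic0_correspondence_smul (heckeAlphaBar Qb N q) (heckeBetaBar Qb N q)
    (heckeAlphaBarIntegral_of_dvd Qb N q hq.out hqN) (heckeBetaBarIntegral_of_dvd Qb N q hq.out hqN)
    (arithmeticGalois (modularFunctionFieldFull N) σ)
    (arithmeticGalois (modularFunctionFieldFull (N * q)) σ)
    (fundamentalIdentityAlong_alpha_of_dvd N q hqN) (finiteAlong_beta_of_dvd Qb N q hq.out hqN)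
    (normFormulaAlong_beta_of_dvd N q hq.out hqN)
    (heckeAlphaBar_smul N q σ) (heckeBetaBar_smul N q σ)
    (fun w => Fermat.Agent.ES.HECKE.FundId12.inertiaDegAlong_eq_one (heckeBetaBar Qb N q)
      (heckeBetaBarIntegral_of_dvd Qb N q hq.out hqN) (finiteAlong_beta_of_dvd Qb N q hq.out hqN)
      (Fermat.Agent.RED.TOP.FbarFacts20.isGen_j N) w) x

/-- **`U_q` commutes with the Galois action** (`heckeUBar` form). -/
theorem heckeUBar_smul (σ : AlgebraicClosure ℚ ≃ₐ[ℚ] AlgebraicClosure ℚ) (x : JZero N) :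
    heckeUBar N q hqN (σ • x) = σ • heckeUBar N q hqN x :=
  heckeUAlong_smul N q hqN σ x

end Fermat.Agent.T1B.KumU48
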