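/-
Programme T1B (row 38 via S44), brick KUM-U2 (helper48), file 6: THE FAMILY OF CLASSICAL `U_2`.

`Top68/Global.lean` is parametrised by `U : UFamily` (a `U_2`-operator on every `J₀(N')(ℚ̄)`).
`heckeUFamily` is the classical one: `U_2 = β_* α^*` (`heckeUBar N' 2`) when `2 ∣ N'`, and `0`
otherwise (the levels of `EMBED44` / `LOCAL44` / `LIFT0` are all even).

* `heckeUFamily_apply_of_dvd` : unfolding at even level;
* `heckeUFamily_smul` : it commutes with `Gal(ℚ̄/ℚ)`;
* `kumQAdd_heckeUFamily` : the Kummer compatibility (contract (cl) of LIFT0), at even level.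
-/
import Fermat.Agent.T1B.KumU48.GaloisU
import Fermat.Agent.T1B.Top68.Global

set_option autoImplicit false
set_option linter.unusedSectionVars false
set_option linter.style.haveILetI false

noncomputable section

open AlgebraicCurve ModularCurve CongruenceSubgroup

namespace Fermat.Agent.T1B.KumU48

open Fermat.Agent.T1B.Top68 Fermat.Agent.ES.HEQ.KummerHeckeQ19 Fermat.Agent.ES.J.TateChar11
open Fermat.Agent.ES.KUM Fermat.Agent.X0


open Classical in
/-- **The family of classical `U_2`-operators** `β_* α^*` on the `J₀(N')(ℚ̄)`. -/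
def heckeUFamily : UFamily := fun N' _ =>
  if h : 2 ∣ N' then heckeUBar N' 2 h else 0

theorem heckeUFamily_apply_of_dvd (N' : ℕ) [NeZero N'] (h : 2 ∣ N') :
    heckeUFamily N' = heckeUBar N' 2 h := by
  unfold heckeUFamily
  rw [dif_pos h]

/-- `U_2` commutes with the Galois action. -/
theorem heckeUFamily_smul (N' : ℕ) [NeZero N']
    (σ : AlgebraicClosure ℚ ≃ₐ[ℚ] AlgebraicClosure ℚ) (x : JZero N') :
    heckeUFamily N' (σ • x) = σ • heckeUFamily N' x := by
  by_cases h : 2 ∣ N'
  · rw [heckeUFamily_apply_of_dvd N' h]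
    exact heckeUBar_smul N' 2 h σ x
  · unfold heckeUFamily
    rw [dif_neg h, LinearMap.zero_apply, LinearMap.zero_apply, smul_zero]

/-- **Kummer compatibility of the family** at even level. -/
theorem kumQAdd_heckeUFamily {N' : ℕ} [NeZero N'] (h2 : 2 ∣ N') (n : ℕ) [NeZero n]
    [Finite (Pic0.torsion ℂ (FC N') n)] (x : ↥(tors (JZero N') n))
    (hx : heckeUFamily N' (x : JZero N') ∈ tors (JZero N') n) :
    kumQAdd N' n ⟨heckeUFamily N' (x : JZero N'), hx⟩ = UqX h2 (kumQAdd N' n x) := by
  have e := heckeUFamily_apply_of_dvd N' h2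
  have hx' : heckeUBar N' 2 h2 (x : JZero N') ∈ tors (JZero N') n := by rw [← e]; exact hx
  have := kumQAdd_heckeUBar h2 n x hx'
  rw [← this]
  congr 1
  apply Subtype.ext
  show heckeUFamily N' (x : JZero N') = heckeUBar N' 2 h2 (x : JZero N')
  rw [e]

end Fermat.Agent.T1B.KumU48
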