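/-
T1B (helper48): bridge between the two landed names of the classical `U_q = β_* α^*`:
`KumU6.heckeUBar N ⟨q, _⟩` (helper6, total in the prime) and `KumU48.heckeUBar N q hqN` (`q ∣ N`).
Both unfold to `heckePic0BarTranspose` with (proof-irrelevant) inputs.
-/
import Mathlib
import Fermat.Agent.T1B.KumU48.UFamily
import Fermat.Agent.T1B.KumU6.TransposeDef

set_option autoImplicit false
set_option linter.style.haveILetI false

noncomputable section

open AlgebraicCurve ModularCurve

namespace Fermat.Agent.T1B.KumU48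

variable (N q : ℕ) [NeZero N] [hq : Fact q.Prime] (hqN : q ∣ N)

theorem heckeUAlong_eq_kumU6 :
    (haveI : NeZero q := ⟨hq.out.ne_zero⟩;
      Fermat.Agent.T1B.KumU6.heckeUAlong (AlgebraicClosure ℚ) N q) = heckeUAlong N q hqN := by
  haveI : NeZero q := ⟨hq.out.ne_zero⟩
  haveI := Fermat.Agent.ES.HECKE.InputsMain19.hasPrincipalDivisors_level N q
  rw [Fermat.Agent.T1B.KumU6.heckeUAlong_eq]
  rfl

theorem heckeUBar_eq_kumU6 :
    Fermat.Agent.T1B.KumU6.heckeUBar N (⟨q, hq.out⟩ : Nat.Primes) = heckeUBar N q hqN := by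
  apply LinearMap.ext
  intro x
  exact DFunLike.congr_fun (heckeUAlong_eq_kumU6 N q hqN) x

/-- the family is helper6's operator at the prime `2` whenever `2 ∣ N`. -/
theorem heckeUFamily_eq_kumU6 (h2 : 2 ∣ N) :
    heckeUFamily N = Fermat.Agent.T1B.KumU6.heckeUBar N (⟨2, Nat.prime_two⟩ : Nat.Primes) := by
  rw [heckeUFamily_apply_of_dvd N h2]
  exact (heckeUBar_eq_kumU6 N 2 h2).symm

end Fermat.Agent.T1B.KumU48
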